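import Fermat.Agent.S18.H602.Descent
import Fermat.Agent.A2.H129.KummerJZero

/-!
# Cell A2, piece DESC (helper34): Galois-stable finite levels

`Q̄ = AlgebraicClosure ℚ`, `σ : Q̄ ≃ₐ[ℚ] Q̄`, `F₀` any `ℚ`-subfield of `ℚ((q))`,
`F̄ = laurentBaseChange Q̄ F₀`, `τ = arithmeticRingAut F₀ σ` (action on the coefficients).

* `apply_mem_of_normal` : a normal intermediate field `E` of `Q̄/ℚ` is stable under every `σ`.
* `descendsTo_coeffMap_of_normal` : if `x ∈ F̄` is defined over a normal `E`, so is `τ x`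
  (`DescendsTo` = `Fermat.Agent.S18.H602.DescendsTo`).
* `exists_normal_descent` : every finite set of elements of `F̄` is defined over ONE finite
  NORMAL (hence Galois) extension `E/ℚ` inside `Q̄`, containing a prescribed finite `E₀`.
* `KummerTwiceAt N m σ E` : the Kummer form of wall A2 for the functions defined over `E`.
* `a2Kummer_of_levels` : `H129.A2Kummer N m σ` follows from `KummerTwiceAt N m σ E` for all finite
  normal `E ⊇ E₀`.  (So every wall route may work at a finite `σ`-stable level `E` of its choice.)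
-/

set_option autoImplicit false

noncomputable section

namespace Fermat.Agent.A2.H34

open ModularCurve AlgebraicCurve HahnSeries IntermediateField
open Fermat.Agent.S18.H602 (DescendsTo)

local notation "Q̄" => AlgebraicClosure ℚ

/-- A normal intermediate field of `Q̄/ℚ` is stable under every automorphism of `Q̄`. -/
theorem apply_mem_of_normal (E : IntermediateField ℚ Q̄) [Normal ℚ E] (σ : Q̄ ≃ₐ[ℚ] Q̄)
    {a : Q̄} (ha : a ∈ E) : σ a ∈ E := by
  have h := AlgEquiv.restrictNormal_commutes σ E ⟨a, ha⟩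
  have h' : σ a = algebraMap E Q̄ (σ.restrictNormal E ⟨a, ha⟩) := h.symm
  rw [h']
  exact (σ.restrictNormal E ⟨a, ha⟩).2

/-- The restriction of `σ` to a normal intermediate field, as a ring homomorphism. -/
def resHom (E : IntermediateField ℚ Q̄) [Normal ℚ E] (σ : Q̄ ≃ₐ[ℚ] Q̄) : E →+* E :=
  ((σ.restrictNormal E : E ≃ₐ[ℚ] E) : E →+* E)

theorem algebraMap_resHom (E : IntermediateField ℚ Q̄) [Normal ℚ E] (σ : Q̄ ≃ₐ[ℚ] Q̄) (a : E) :
    algebraMap E Q̄ (resHom E σ a) = σ (algebraMap E Q̄ a) :=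
  AlgEquiv.restrictNormal_commutes σ E a

variable {F₀ : IntermediateField ℚ (LaurentSeries ℚ)}

/-- If `x` is defined over the normal field `E`, so is `σ x` (coefficientwise action). -/
theorem descendsTo_coeffMap_of_normal (E : IntermediateField ℚ Q̄) [Normal ℚ E]
    (σ : Q̄ ≃ₐ[ℚ] Q̄) {x : LaurentSeries Q̄} (h : DescendsTo F₀ E x) :
    DescendsTo F₀ E (coeffMap (σ : Q̄ →+* Q̄) x) := by
  obtain ⟨y, hy, rfl⟩ := h
  refine ⟨coeffMap (resHom E σ) y,
    Fermat.Agent.S18.H602.coeffMap_mem_laurentBaseChange F₀ (resHom E σ) hy, ?_⟩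
  rw [coeffMap_coeffMap, coeffMap_coeffMap]
  exact coeffMap_congr (RingHom.ext fun a => algebraMap_resHom E σ a) y

/-- Every finite family of elements of `laurentBaseChange Q̄ F₀` is defined over one finite
normal extension of `ℚ` containing a prescribed finite extension `E₀`. -/
theorem exists_normal_descent (E₀ : IntermediateField ℚ Q̄) [FiniteDimensional ℚ E₀]
    (s : Finset (LaurentSeries Q̄)) (hs : ∀ x ∈ s, x ∈ laurentBaseChange Q̄ F₀) :
    ∃ E : IntermediateField ℚ Q̄, FiniteDimensional ℚ E ∧ Normal ℚ E ∧ E₀ ≤ E ∧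
      ∀ x ∈ s, DescendsTo F₀ E x := by
  classical
  -- first a finite extension, by induction on `s`
  have key : ∃ E : IntermediateField ℚ Q̄, FiniteDimensional ℚ E ∧ E₀ ≤ E ∧
      ∀ x ∈ s, DescendsTo F₀ E x := by
    induction s using Finset.induction_on with
    | empty => exact ⟨E₀, inferInstance, le_rfl, by simp⟩
    | insert a t _ ih =>
      obtain ⟨E₁, hE₁, hle, hd⟩ := ih (fun x hx => hs x (Finset.mem_insert_of_mem hx))
      obtain ⟨E₂, hE₂, d₂⟩ :=
        Fermat.Agent.S18.H602.exists_finite_descent (hs a (Finset.mem_insert_self a t))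
      refine ⟨E₁ ⊔ E₂, IntermediateField.finiteDimensional_sup E₁ E₂, hle.trans le_sup_left, ?_⟩
      intro x hx
      rcases Finset.mem_insert.mp hx with rfl | hx
      · exact d₂.mono le_sup_right
      · exact (hd x hx).mono le_sup_left
  obtain ⟨E, hE, hle, hd⟩ := key
  have hcl : IsAlgClosure ℚ Q̄ := ⟨inferInstance, Fermat.Agent.S18.H602.isAlgebraic_Qbar⟩
  have hQ : Normal ℚ Q̄ := IsAlgClosure.normal ℚ Q̄
  refine ⟨IntermediateField.normalClosure ℚ E Q̄, normalClosure.is_finiteDimensional ℚ E Q̄,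
    normalClosure.normal ℚ E Q̄,
    hle.trans (IntermediateField.le_normalClosure E), fun x hx =>
      (hd x hx).mono (IntermediateField.le_normalClosure E)⟩

/-- **Kummer form of wall A2 at the finite level `E`**: the statement `H129.A2Kummer` restricted
to the functions `f` that are defined over `E`. -/
def KummerTwiceAt (N m : ℕ) (σ : Q̄ ≃ₐ[ℚ] Q̄) (E : IntermediateField ℚ Q̄) : Prop :=
  ∀ f : modularFunctionFieldBar N, f ≠ 0 →
    DescendsTo (modularFunctionFieldFull N) E (f : LaurentSeries Q̄) →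
    (∀ v : Place Q̄ (modularFunctionFieldBar N), (m : ℤ) ∣ v.ord f) →
    ∃ y : modularFunctionFieldBar N, ∃ c : Q̄, c ≠ 0 ∧
      H129.tauSubOne (arithmeticRingAut (modularFunctionFieldFull N) σ)
        (H129.tauSubOne (arithmeticRingAut (modularFunctionFieldFull N) σ) f)
        = algebraMap Q̄ (modularFunctionFieldBar N) c * y ^ m

/-- **DESC.**  The wall at all finite normal levels `E ⊇ E₀` gives `A2Kummer`. -/
theorem a2Kummer_of_levels (N m : ℕ) (σ : Q̄ ≃ₐ[ℚ] Q̄)
    (E₀ : IntermediateField ℚ Q̄) [FiniteDimensional ℚ E₀]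
    (H : ∀ E : IntermediateField ℚ Q̄, FiniteDimensional ℚ E → Normal ℚ E → E₀ ≤ E →
      KummerTwiceAt N m σ E) :
    H129.A2Kummer N m σ := by
  intro f hf hdiv
  obtain ⟨E, hE, hN, hle, hd⟩ :=
    exists_normal_descent (F₀ := modularFunctionFieldFull N) E₀ {(f : LaurentSeries Q̄)}
      (by
        intro x hx
        rw [Finset.mem_singleton] at hx
        rw [hx]
        exact f.2)
  exact H E hE hN hle f hf (hd _ (Finset.mem_singleton_self _)) hdiv

/-- **strong A2 from the finite levels** (K1 ∘ DESC), in the shape consumed by TRANSFER. -/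
theorem strongA2_of_levels (N m : ℕ) (hm : m ≠ 0) (σ : Q̄ ≃ₐ[ℚ] Q̄)
    (E₀ : IntermediateField ℚ Q̄) [FiniteDimensional ℚ E₀]
    (H : ∀ E : IntermediateField ℚ Q̄, FiniteDimensional ℚ E → Normal ℚ E → E₀ ≤ E →
      KummerTwiceAt N m σ E)
    (x : JZero N) (hx : m • x = 0) :
    σ • (σ • x - x) = σ • x - x :=
  H129.unipotent_JZero_of_kummer N m hm σ (a2Kummer_of_levels N m σ E₀ H) x hx

end Fermat.Agent.A2.H34
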